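import Fermat.Agent.Poincare.Bound

/-!
# Poincaré series as the weight grows

On the line `y = 2` the integral in the coefficient formula is `O(2 ^ (-k))` uniformly in the
modulus, so `a_n(P_m) → 2 δ_{m n}` as the even weight tends to infinity.
-/

set_option autoImplicit false

noncomputable section

namespace FA.VerticalSatoTate

open UpperHalfPlane hiding I
open Complex MeasureTheory CongruenceSubgroup
open scoped MatrixGroups Real

variable {N : ℕ} [NeZero N]

theorem norm_lineIntegral_two_le {k : ℤ} (hk : 2 ≤ k) (m n c : ℕ) :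
    ‖Poincare.lineIntegral k m n c 2‖ ≤
      Real.exp (4 * π * n) * π * (2 : ℝ) ^ (1 - (k : ℝ)) := by
  have h2 : (0 : ℝ) < 2 := two_pos
  have hi := Poincare.integrable_inv_sq_add_sq h2
  refine (norm_integral_le_of_norm_le ((hi.const_mul _).const_mul _)
    (Filter.Eventually.of_forall fun x => Poincare.norm_profile_le hk m n c h2 x)).trans_eq ?_
  rw [integral_const_mul, integral_const_mul, Poincare.integral_inv_sq_add_sq h2,
    show (2 - (k : ℝ)) = (1 - k) + 1 by ring, Real.rpow_add h2, Real.rpow_one,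
    show 2 * π * n * (2 : ℝ) = 4 * π * n by ring]
  ring

/-- The bound of the coefficient, uniform in the weight and in the level. -/
theorem norm_coeff_poincare_sub_le {k : ℤ} (hk : 4 ≤ k) {m : ℕ} (hm : m ≠ 0) (n : ℕ) :
    ‖(qExpansion 1 (Poincare.cuspForm N (by omega : 3 ≤ k) hm)).coeff n -
        (1 + (-1) ^ k) * if m = n then 1 else 0‖ ≤
      2 * Real.exp (4 * π * n) * π * (∑' c : ℕ, ((c : ℝ) ^ 2)⁻¹) * (2 : ℝ) ^ (1 - (k : ℝ)) /
        (N : ℝ) ^ 2 := by
  have h := Poincare.coefficient (N := N) (by omega : 3 ≤ k) hm n two_pos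
  have hk' : (4 : ℝ) ≤ k := by exact_mod_cast hk
  have heps : ‖(1 + (-1) ^ k : ℂ)‖ ≤ 2 := by
    refine (norm_add_le _ _).trans ?_
    rw [norm_one, norm_zpow, norm_neg, norm_one, one_zpow]
    norm_num
  have hterm : ∀ c : Poincare.moduli N, ‖(1 + (-1) ^ k : ℂ) * ((((c : ℕ) : ℂ) ^ (-k)) *
      HooleyRoots.klSum c (n : ZMod c) (m : ZMod c) * Poincare.lineIntegral k m n c 2)‖ ≤
      2 * Real.exp (4 * π * n) * π * (2 : ℝ) ^ (1 - (k : ℝ)) * (((c : ℕ) : ℝ) ^ 2)⁻¹ := by
    intro c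
    have hc : (1 : ℝ) ≤ (c : ℕ) := by exact_mod_cast c.2.1
    rw [norm_mul, norm_mul, norm_mul, norm_zpow, Complex.norm_natCast, ← Real.rpow_intCast,
      Int.cast_neg]
    have h1 := HooleyRoots.norm_klSum_le_self (n : ZMod c) (m : ZMod c)
    have h2 := norm_lineIntegral_two_le (k := k) (by omega) m n c
    have h3 : ((c : ℕ) : ℝ) ^ (-(k : ℝ)) * (c : ℕ) ≤ (((c : ℕ) : ℝ) ^ 2)⁻¹ := by
      rw [show ((c : ℕ) : ℝ) ^ (-(k : ℝ)) * (c : ℕ) = ((c : ℕ) : ℝ) ^ (-(k : ℝ) + 1) by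
        rw [Real.rpow_add (by linarith), Real.rpow_one], ← Real.rpow_natCast, ← Real.rpow_neg
        (by linarith)]
      exact Real.rpow_le_rpow_of_exponent_le hc (by push_cast; linarith)
    calc ‖(1 + (-1) ^ k : ℂ)‖ * (((c : ℕ) : ℝ) ^ (-(k : ℝ)) *
          ‖HooleyRoots.klSum c (n : ZMod c) (m : ZMod c)‖ * ‖Poincare.lineIntegral k m n c 2‖)
        ≤ 2 * (((c : ℕ) : ℝ) ^ (-(k : ℝ)) * (c : ℕ) *
            (Real.exp (4 * π * n) * π * (2 : ℝ) ^ (1 - (k : ℝ)))) := by gcongr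
      _ ≤ 2 * ((((c : ℕ) : ℝ) ^ 2)⁻¹ *
            (Real.exp (4 * π * n) * π * (2 : ℝ) ^ (1 - (k : ℝ)))) := by gcongr
      _ = _ := by ring
  have hs : Summable fun c : ℕ => ((c : ℝ) ^ 2)⁻¹ := Real.summable_nat_pow_inv.2 one_lt_two
  set e : Poincare.moduli N → ℕ := fun c => (c : ℕ) / N with he
  have hinj : Function.Injective e := fun a b h => by
    have h' : N * ((a : ℕ) / N) = N * ((b : ℕ) / N) := congrArg (N * ·) h
    rw [Nat.mul_div_cancel' a.2.2, Nat.mul_div_cancel' b.2.2] at h'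
    exact Subtype.ext h'
  have hsq : ∀ c : Poincare.moduli N,
      (((c : ℕ) : ℝ) ^ 2)⁻¹ = (((e c : ℕ) : ℝ) ^ 2)⁻¹ / (N : ℝ) ^ 2 := fun c => by
    have h' : ((c : ℕ) : ℝ) = N * (e c : ℕ) := by exact_mod_cast (Nat.mul_div_cancel' c.2.2).symm
    rw [h', mul_pow, mul_inv, div_eq_mul_inv, mul_comm]
  simp only [hsq] at hterm
  have hs' := ((hs.comp_injective hinj).div_const ((N : ℝ) ^ 2)).mul_left
    (2 * Real.exp (4 * π * n) * π * (2 : ℝ) ^ (1 - (k : ℝ)))
  rw [← h.tsum_eq]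
  refine (tsum_of_norm_bounded hs'.hasSum hterm).trans ?_
  simp only [Function.comp_apply]
  rw [tsum_mul_left, tsum_div_const, mul_div_assoc', mul_right_comm (2 * Real.exp (4 * π * n) * π)]
  gcongr
  exact tsum_comp_le_tsum_of_inj hs (fun c => by positivity) hinj

theorem exists_coeff_poincare_bound (m n : ℕ) (hm : m ≠ 0) :
    ∃ C : ℝ, ∀ (k : ℤ) (hk : 4 ≤ k),
      ‖(qExpansion 1 (Poincare.cuspForm N (by omega : 3 ≤ k) hm)).coeff n -
        (1 + (-1) ^ k) * if m = n then 1 else 0‖ ≤ C * (2 : ℝ) ^ (1 - (k : ℝ)) :=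
  ⟨_, fun k hk => (norm_coeff_poincare_sub_le hk hm n).trans
    (div_le_self (mul_nonneg (mul_nonneg (by positivity) (tsum_nonneg fun c => by positivity))
      (by positivity)) (one_le_pow₀ (Nat.one_le_cast.2 (NeZero.pos N))))⟩

/-- **Asymptotic orthogonality.** -/
theorem tendsto_coeff_poincare {k : ℕ → ℤ} (hk3 : ∀ j, 3 ≤ k j)
    (hk : Filter.Tendsto k Filter.atTop Filter.atTop) (he : ∀ j, Even (k j)) {m : ℕ} (hm : m ≠ 0)
    (n : ℕ) :
    Filter.Tendsto (fun j => (qExpansion 1 (Poincare.cuspForm N (hk3 j) hm)).coeff n)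
      Filter.atTop (nhds (if m = n then 2 else 0)) := by
  obtain ⟨C, hC⟩ := exists_coeff_poincare_bound (N := N) m n hm
  rw [tendsto_iff_norm_sub_tendsto_zero]
  refine squeeze_zero' (Filter.Eventually.of_forall fun j => norm_nonneg _)
    (g := fun j => C * (2 : ℝ) ^ (1 - (k j : ℝ))) ?_ ?_
  · filter_upwards [hk.eventually_ge_atTop 4] with j hj
    have := hC (k j) hj
    rw [(he j).neg_one_zpow] at this
    rw [show (if m = n then (2 : ℂ) else 0) = (1 + 1) * if m = n then 1 else 0 by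
      split <;> norm_num]
    exact this
  · have h1 : Filter.Tendsto (fun j => ((k j : ℝ))) Filter.atTop Filter.atTop :=
      tendsto_intCast_atTop_atTop.comp hk
    have h2 : Filter.Tendsto (fun j => (2 : ℝ) ^ (1 - (k j : ℝ))) Filter.atTop (nhds 0) :=
      (tendsto_rpow_atBot_of_base_gt_one 2 one_lt_two).comp
        (Filter.tendsto_atBot_add_const_left _ 1 (Filter.tendsto_neg_atTop_atBot.comp h1))
    simpa using h2.const_mul C

end FA.VerticalSatoTate

end
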