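import Mathlib.Analysis.SpecialFunctions.Integrals.Basic
import Mathlib.MeasureTheory.Integral.IntervalIntegral.IntegrationByParts
import Mathlib.Topology.ContinuousMap.Weierstrass

/-!
# The semicircle law: moments, and convergence from moments

`moment n i = (2/π) ∫_0^π (2 cos θ)^n sin((i + 1) θ) sin θ` satisfies the recursion of the Hecke
operator; convergence of all moments to those of the semicircle law gives convergence for every
bounded continuous test function, with no bound on the points.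
-/

set_option autoImplicit false

noncomputable section

namespace FA.VerticalSatoTate

open MeasureTheory Filter Real
open scoped Topology

/-- The mean of `φ` for the semicircle law on `[-2, 2]`. -/
def semiMean (φ : ℝ → ℝ) : ℝ := (2 * π)⁻¹ * ∫ t in (-2 : ℝ)..2, φ t * √(4 - t ^ 2)

/-- The moments paired with the Chebyshev polynomials. -/
def moment (n i : ℕ) : ℝ :=
  2 / π * ∫ θ in (0 : ℝ)..π, (2 * cos θ) ^ n * sin ((i + 1) * θ) * sin θ

theorem integral_cos_nat {j : ℕ} (hj : j ≠ 0) : ∫ θ in (0 : ℝ)..π, cos (j * θ) = 0 := by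
  rw [intervalIntegral.integral_comp_mul_left (fun t => cos t) (Nat.cast_ne_zero.2 hj),
    integral_cos, mul_zero, sin_nat_mul_pi, sin_zero]
  simp

theorem moment_zero (i : ℕ) : moment 0 i = if i = 0 then 1 else 0 := by
  have h : ∀ θ : ℝ, (2 * cos θ) ^ 0 * sin ((i + 1) * θ) * sin θ =
      (cos (i * θ) - cos (((i + 2 : ℕ) : ℝ) * θ)) / 2 := fun θ => by
    rw [pow_zero, one_mul, Real.cos_sub_cos,
      show (((i : ℝ) * θ + ((i + 2 : ℕ) : ℝ) * θ) / 2) = (i + 1) * θ by push_cast; ring,
      show (((i : ℝ) * θ - ((i + 2 : ℕ) : ℝ) * θ) / 2) = -θ by push_cast; ring, sin_neg]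
    ring
  unfold moment
  simp only [h]
  rw [intervalIntegral.integral_div, intervalIntegral.integral_sub
    ((by fun_prop : Continuous fun θ : ℝ => cos (i * θ)).intervalIntegrable _ _)
    ((by fun_prop : Continuous fun θ : ℝ => cos (((i + 2 : ℕ) : ℝ) * θ)).intervalIntegrable _ _),
    integral_cos_nat (by omega : i + 2 ≠ 0)]
  split_ifs with hi
  · subst hi
    simp
  · rw [integral_cos_nat hi]
    simp

theorem moment_succ (n i : ℕ) :
    moment (n + 1) i = moment n (i + 1) + if i = 0 then 0 else moment n (i - 1) := by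
  have hc : ∀ j : ℝ, Continuous fun θ : ℝ => (2 * cos θ) ^ n * sin (j * θ) * sin θ := fun j => by
    fun_prop
  have h : ∀ θ : ℝ, (2 * cos θ) ^ (n + 1) * sin ((i + 1) * θ) * sin θ =
      (2 * cos θ) ^ n * sin (((i : ℝ) + 2) * θ) * sin θ +
        (2 * cos θ) ^ n * sin ((i : ℝ) * θ) * sin θ := fun θ => by
    rw [show ((i : ℝ) + 2) * θ = (i + 1) * θ + θ by ring,
      show (i : ℝ) * θ = (i + 1) * θ - θ by ring, sin_add, sin_sub, pow_succ]
    ring
  unfold moment
  simp only [h]
  rw [intervalIntegral.integral_add ((hc _).intervalIntegrable _ _)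
    ((hc _).intervalIntegrable _ _), mul_add]
  congr 1
  · push_cast
    ring_nf
  · split_ifs with hi
    · subst hi
      simp
    · obtain ⟨l, rfl⟩ := Nat.exists_eq_succ_of_ne_zero hi
      simp

theorem semiMean_eq_angle {φ : ℝ → ℝ} (hφ : Continuous φ) :
    semiMean φ = 2 / π * ∫ θ in (0 : ℝ)..π, φ (2 * cos θ) * sin θ * sin θ := by
  have h := intervalIntegral.integral_comp_mul_deriv (a := (0 : ℝ)) (b := π)
    (f := fun θ => 2 * cos θ) (f' := fun θ => -(2 * sin θ)) (g := fun t => φ t * √(4 - t ^ 2))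
    (fun θ _ => by simpa using (hasDerivAt_cos θ).const_mul 2) (by fun_prop) (by fun_prop)
  have he : ∀ θ ∈ Set.uIcc 0 π, ((fun t => φ t * √(4 - t ^ 2)) ∘ fun θ => 2 * cos θ) θ *
      (fun θ => -(2 * sin θ)) θ = -4 * (φ (2 * cos θ) * sin θ * sin θ) := by
    intro θ hθ
    rw [Set.uIcc_of_le pi_pos.le] at hθ
    have hs : √(4 - (2 * cos θ) ^ 2) = 2 * sin θ := by
      rw [show 4 - (2 * cos θ) ^ 2 = (2 * sin θ) ^ 2 by
        linear_combination (-4) * (Real.sin_sq_add_cos_sq θ)]
      exact Real.sqrt_sq (mul_nonneg zero_le_two (sin_nonneg_of_mem_Icc hθ))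
    simp only [Function.comp_apply, hs]
    ring
  rw [intervalIntegral.integral_congr he, intervalIntegral.integral_const_mul] at h
  simp only [cos_zero, cos_pi, mul_one, mul_neg] at h
  rw [semiMean, intervalIntegral.integral_symm, ← h]
  field_simp
  ring

theorem semiMean_pow (n : ℕ) : semiMean (fun t => t ^ n) = moment n 0 := by
  rw [semiMean_eq_angle (by fun_prop), moment]
  simp

theorem semiMean_one : semiMean (fun _ => 1) = 1 := by
  have h := semiMean_pow 0
  simp only [pow_zero] at h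
  rw [h, moment_zero, if_pos rfl]

theorem intervalIntegrable_semi {φ : ℝ → ℝ} (hφ : Continuous φ) :
    IntervalIntegrable (fun t => φ t * √(4 - t ^ 2)) volume (-2) 2 :=
  (hφ.mul (by fun_prop)).intervalIntegrable _ _

theorem semiMean_eval (q : Polynomial ℝ) :
    semiMean (fun t => q.eval t) =
      ∑ i ∈ Finset.range (q.natDegree + 1), q.coeff i * moment i 0 := by
  simp only [← semiMean_pow, semiMean]
  rw [show (fun t : ℝ => q.eval t * √(4 - t ^ 2)) = fun t =>
      ∑ i ∈ Finset.range (q.natDegree + 1), q.coeff i * (t ^ i * √(4 - t ^ 2))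
      from funext fun t => by
    rw [Polynomial.eval_eq_sum_range, Finset.sum_mul]
    exact Finset.sum_congr rfl fun i _ => by ring,
    intervalIntegral.integral_finsetSum fun i _ =>
      (intervalIntegrable_semi (φ := fun t => t ^ i) (by fun_prop)).const_mul _, Finset.mul_sum]
  refine Finset.sum_congr rfl fun i _ => ?_
  rw [intervalIntegral.integral_const_mul]
  ring

theorem semiMean_mono {φ ψ : ℝ → ℝ} (hφ : Continuous φ) (hψ : Continuous ψ)
    (h : ∀ t ∈ Set.Icc (-2 : ℝ) 2, φ t ≤ ψ t) : semiMean φ ≤ semiMean ψ :=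
  mul_le_mul_of_nonneg_left (intervalIntegral.integral_mono_on (by norm_num)
    (intervalIntegrable_semi hφ) (intervalIntegrable_semi hψ) fun t ht =>
      mul_le_mul_of_nonneg_right (h t ht) (Real.sqrt_nonneg _)) (by positivity)

theorem semiMean_const (c : ℝ) : semiMean (fun _ => c) = c := by
  have h := semiMean_one
  simp only [semiMean, one_mul] at h ⊢
  rw [intervalIntegral.integral_const_mul, mul_left_comm, h, mul_one]

theorem abs_semiMean_sub_le {φ ψ : ℝ → ℝ} (hφ : Continuous φ) (hψ : Continuous ψ) {ε : ℝ}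
    (h : ∀ t ∈ Set.Icc (-2 : ℝ) 2, |φ t - ψ t| ≤ ε) : |semiMean φ - semiMean ψ| ≤ ε := by
  have hsub : semiMean (fun t => φ t - ψ t) = semiMean φ - semiMean ψ := by
    simp only [semiMean, sub_mul]
    rw [intervalIntegral.integral_sub (intervalIntegrable_semi hφ) (intervalIntegrable_semi hψ),
      mul_sub]
  rw [← hsub, abs_le]
  have h1 := semiMean_mono (φ := fun _ => -ε) continuous_const (hφ.sub hψ)
    fun t ht => (abs_le.1 (h t ht)).1
  have h2 := semiMean_mono (ψ := fun _ => ε) (hφ.sub hψ) continuous_const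
    fun t ht => (abs_le.1 (h t ht)).2
  rw [semiMean_const] at h1 h2
  exact ⟨h1, h2⟩

theorem moment_even_le (M : ℕ) : moment (2 * M) 0 ≤ 4 ^ M := by
  rw [← semiMean_pow, ← semiMean_const (4 ^ M)]
  refine semiMean_mono (by fun_prop) continuous_const fun t ht => ?_
  rw [pow_mul]
  exact pow_le_pow_left₀ (sq_nonneg t) (by nlinarith [ht.1, ht.2]) M

theorem semiMean_pos {φ : ℝ → ℝ} (hφ : Continuous φ) (h0 : ∀ t, 0 ≤ φ t) {c : ℝ}
    (hc : c ∈ Set.Ioo (-2 : ℝ) 2) (hpos : 0 < φ c) : 0 < semiMean φ := by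
  refine mul_pos (by positivity) ?_
  refine intervalIntegral.integral_pos (by norm_num) (hφ.mul (by fun_prop)).continuousOn
    (fun t _ => mul_nonneg (h0 t) (Real.sqrt_nonneg _)) ⟨c, Set.Ioo_subset_Icc_self hc, ?_⟩
  exact mul_pos hpos (Real.sqrt_pos.2 (by nlinarith [hc.1, hc.2]))

/-- **Convergence from moments.** -/
theorem tendsto_of_moments {ι : ℕ → Type*} [∀ j, Fintype (ι j)] (w x : ∀ j, ι j → ℝ)
    (hw : ∀ᶠ j in atTop, ∀ i, 0 ≤ w j i)
    (hm : ∀ n : ℕ, Tendsto (fun j => ∑ i, w j i * x j i ^ n) atTop (𝓝 (moment n 0)))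
    {φ : ℝ → ℝ} (hφ : Continuous φ) {B : ℝ} (hB : ∀ t, |φ t| ≤ B) :
    Tendsto (fun j => ∑ i, w j i * φ (x j i)) atTop (𝓝 (semiMean φ)) := by
  rw [Metric.tendsto_nhds]
  intro ε hε
  obtain ⟨q, hq⟩ := exists_polynomial_near_of_continuousOn (-3) 3 φ hφ.continuousOn (ε / 8)
    (by positivity)
  set d := q.natDegree
  set S : ℝ := ∑ i ∈ Finset.range (d + 1), |q.coeff i|
  set C : ℝ := (|B| + S) * 3 ^ d
  have hC : 0 ≤ C := by positivity
  obtain ⟨M, hMd, hM⟩ : ∃ M : ℕ, d ≤ 2 * M ∧ C * (4 / 9) ^ M < ε / 8 := by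
    have h1 : Tendsto (fun M : ℕ => C * (4 / 9 : ℝ) ^ M) atTop (𝓝 0) := by
      simpa using (tendsto_pow_atTop_nhds_zero_of_lt_one (r := (4 / 9 : ℝ)) (by norm_num)
        (by norm_num)).const_mul C
    obtain ⟨M, hM⟩ := ((h1.eventually (gt_mem_nhds (by positivity : (0 : ℝ) < ε / 8))).and
      (eventually_ge_atTop d)).exists
    exact ⟨M, by omega, hM.1⟩
  have hpt : ∀ t : ℝ, |φ t - q.eval t| ≤ ε / 8 + C * (t ^ 2 / 9) ^ M := by
    intro t
    by_cases ht : |t| ≤ 3
    · have h := hq t (abs_le.1 ht)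
      rw [abs_sub_comm] at h
      exact h.le.trans (le_add_of_nonneg_right (by positivity))
    · have h3 : 3 < |t| := not_le.1 ht
      refine le_add_of_nonneg_of_le (by positivity) ?_
      calc |φ t - q.eval t| ≤ |φ t| + |q.eval t| := abs_sub _ _
        _ ≤ |B| * |t| ^ d + S * |t| ^ d := by
            refine add_le_add (((hB t).trans (le_abs_self B)).trans
              (le_mul_of_one_le_right (abs_nonneg _) (one_le_pow₀ (by linarith)))) ?_
            rw [Polynomial.eval_eq_sum_range, Finset.sum_mul]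
            refine (Finset.abs_sum_le_sum_abs _ _).trans (Finset.sum_le_sum fun i hi => ?_)
            rw [abs_mul, abs_pow]
            exact mul_le_mul_of_nonneg_left
              (pow_le_pow_right₀ (by linarith) (Nat.lt_succ_iff.1 (Finset.mem_range.1 hi)))
              (abs_nonneg _)
        _ = (|B| + S) * 3 ^ d * (|t| / 3) ^ d := by
            rw [div_pow]
            field_simp
        _ ≤ C * (|t| / 3) ^ (2 * M) :=
            mul_le_mul_of_nonneg_left (pow_le_pow_right₀ (by linarith) hMd) hC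
        _ = C * (t ^ 2 / 9) ^ M := by
            rw [pow_mul, div_pow, sq_abs]
            norm_num
  have hpoly : Tendsto (fun j => ∑ i, w j i * q.eval (x j i)) atTop
      (𝓝 (semiMean fun t => q.eval t)) := by
    rw [semiMean_eval]
    have h := tendsto_finsetSum (Finset.range (q.natDegree + 1))
      fun i _ => (hm i).const_mul (q.coeff i)
    refine h.congr fun j => ?_
    simp only [Polynomial.eval_eq_sum_range, Finset.mul_sum]
    rw [Finset.sum_comm]
    exact Finset.sum_congr rfl fun i _ => Finset.sum_congr rfl fun l _ => by ring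
  have herr : ∀ᶠ j in atTop,
      ∑ i, w j i * (ε / 8 + C * (x j i ^ 2 / 9) ^ M) < 3 * (ε / 8) := by
    have h := ((hm 0).const_mul (ε / 8)).add ((hm (2 * M)).const_mul (C / 9 ^ M))
    have hlim : ε / 8 * moment 0 0 + C / 9 ^ M * moment (2 * M) 0 < 3 * (ε / 8) := by
      rw [moment_zero, if_pos rfl, mul_one]
      have := mul_le_mul_of_nonneg_left (moment_even_le M) (by positivity : 0 ≤ C / 9 ^ M)
      have e : C / 9 ^ M * 4 ^ M = C * (4 / 9) ^ M := by rw [div_pow]; ring
      linarith
    filter_upwards [h.eventually (gt_mem_nhds hlim)] with j hj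
    refine lt_of_le_of_lt (le_of_eq ?_) hj
    rw [Finset.mul_sum, Finset.mul_sum, ← Finset.sum_add_distrib]
    exact Finset.sum_congr rfl fun i _ => by rw [div_pow, pow_mul]; ring
  have hclose : |semiMean φ - semiMean fun t => q.eval t| ≤ ε / 8 :=
    abs_semiMean_sub_le hφ q.continuous fun t ht => by
      have h := hq t ⟨by linarith [ht.1], by linarith [ht.2]⟩
      rw [abs_sub_comm] at h
      exact h.le
  filter_upwards [herr, hw, Metric.tendsto_nhds.1 hpoly (ε / 8) (by positivity)] with j h1 h0 h2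
  rw [Real.dist_eq] at h2 ⊢
  have h3 : |∑ i, w j i * φ (x j i) - ∑ i, w j i * q.eval (x j i)| ≤
      ∑ i, w j i * (ε / 8 + C * (x j i ^ 2 / 9) ^ M) := by
    rw [← Finset.sum_sub_distrib]
    refine (Finset.abs_sum_le_sum_abs _ _).trans (Finset.sum_le_sum fun i _ => ?_)
    rw [← mul_sub, abs_mul, abs_of_nonneg (h0 i)]
    exact mul_le_mul_of_nonneg_left (hpt _) (h0 i)
  have h4 := abs_sub_le (∑ i, w j i * φ (x j i)) (∑ i, w j i * q.eval (x j i)) (semiMean φ)
  have h5 := abs_sub_le (∑ i, w j i * q.eval (x j i)) (semiMean fun t => q.eval t) (semiMean φ)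
  rw [abs_sub_comm] at hclose
  linarith

end FA.VerticalSatoTate

end
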