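import Fermat.Agent.VerticalSatoTate.Symmetric
import Fermat.Agent.VerticalSatoTate.Asymptotic
import Fermat.Agent.VerticalSatoTate.Semicircle
import Fermat.Prelude.Thm_ModularFormClass_qCoeff_heckeT
import Mathlib.Analysis.InnerProductSpace.Spectrum
import Mathlib.LinearAlgebra.Eigenspace.Minpoly

/-!
# The vertical Sato–Tate law with Petersson weights

By Petersson's formula the weighted power sums of the eigenvalues of `T_p` are `a_1(T_p^n P_1)`,
which the coefficient formula for `T_p` and `a_n(P_1) → 2 δ_{1 n}` turn into the semicircle moments.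
-/

set_option autoImplicit false
set_option linter.style.haveILetI false

noncomputable section

namespace FA.VerticalSatoTate

open UpperHalfPlane hiding I
open CongruenceSubgroup Filter
open scoped MatrixGroups ModularForm Real Topology ComplexConjugate

variable {N : ℕ} [NeZero N] {p : ℕ}

/-- `p ^ ((k - 1) / 2)`. -/
def normScale (p : ℕ) (k : ℤ) : ℝ := (p : ℝ) ^ (((k : ℝ) - 1) / 2)

theorem normScale_pos (hp : p.Prime) (k : ℤ) : 0 < normScale p k :=
  Real.rpow_pos_of_pos (Nat.cast_pos.2 hp.pos) _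

theorem one_le_normScale (hp : p.Prime) {k : ℤ} (hk : 3 ≤ k) : 1 ≤ normScale p k := by
  have h : (3 : ℝ) ≤ k := by exact_mod_cast hk
  exact Real.one_le_rpow (Nat.one_le_cast.2 hp.one_le) (by linarith)

theorem normScale_sq (p : ℕ) (k : ℤ) : normScale p k ^ 2 = (p : ℝ) ^ (k - 1) := by
  rw [normScale, ← Real.rpow_natCast, ← Real.rpow_mul (Nat.cast_nonneg p), ← Real.rpow_intCast]
  push_cast
  ring_nf

variable {k : ℤ}

/-- The coefficient `n` as a functional. -/
def coeffAt (n : ℕ) : CuspForm (Gamma0 N) k →ₗ[ℂ] ℂ where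
  toFun f := (qExpansion 1 f).coeff n
  map_add' f g := by
    rw [FunLike.coe_add,
      ModularForm.qExpansion_add one_pos (one_mem_strictPeriods_Gamma0 N) f g, map_add]
  map_smul' c f := by
    rw [FunLike.coe_smul,
      ModularForm.qExpansion_smul one_pos (one_mem_strictPeriods_Gamma0 N) c f,
      PowerSeries.coeff_smul]
    rfl

omit [NeZero N] in
theorem coeffAt_apply (n : ℕ) (f : CuspForm (Gamma0 N) k) :
    coeffAt n f = (qExpansion 1 f).coeff n := rfl

omit [NeZero N] in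
theorem coeffAt_heckeT_pow (hp : p.Prime) (hpN : ¬p ∣ N) (f : CuspForm (Gamma0 N) k) (i : ℕ) :
    coeffAt (p ^ i) (CuspForm.heckeTLin k hp hpN f) = coeffAt (p ^ (i + 1)) f +
      if i = 0 then 0 else (p : ℂ) ^ (k - 1) * coeffAt (p ^ (i - 1)) f := by
  have h := ModularFormClass.qCoeff_heckeT (k := k) f (one_mem_strictPeriods_Gamma0 N) hp.ne_zero
    (p ^ i)
  simp only [ModularFormClass.qCoeff, ModularForm.coeffHeckeT_apply] at h
  simp only [coeffAt_apply, CuspForm.coe_heckeTLin_apply]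
  rw [h, pow_succ]
  congr 1
  rcases i with _ | i
  · rw [pow_zero, if_pos rfl, if_neg fun hd => hp.ne_one (Nat.dvd_one.1 hd)]
  · rw [if_pos (dvd_pow_self p (Nat.succ_ne_zero i)), if_neg (Nat.succ_ne_zero i)]
    simp [pow_succ, Nat.mul_div_cancel _ hp.pos]

variable (N) in
/-- `a_{p^i}(T_p^n P_1)`. -/
def iterCoeff (hp : p.Prime) (hpN : ¬p ∣ N) (hk : 3 ≤ k) (n i : ℕ) : ℂ :=
  coeffAt (p ^ i) (((CuspForm.heckeTLin k hp hpN) ^ n) (Poincare.cuspForm N hk one_ne_zero))

theorem iterCoeff_succ (hp : p.Prime) (hpN : ¬p ∣ N) (hk : 3 ≤ k) (n i : ℕ) :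
    iterCoeff N hp hpN hk (n + 1) i = iterCoeff N hp hpN hk n (i + 1) +
      if i = 0 then 0 else (p : ℂ) ^ (k - 1) * iterCoeff N hp hpN hk n (i - 1) := by
  simp only [iterCoeff, pow_succ' (CuspForm.heckeTLin k hp hpN), Module.End.mul_apply,
    coeffAt_heckeT_pow]

/-- The hypothesis of the law: `a_{p^i}(P_1) → 2 δ_{i 0}` along a sequence of levels and
weights. -/
def FirstColumn {N : ℕ → ℕ} [∀ j, NeZero (N j)] (p : ℕ) {k : ℕ → ℤ} (hk3 : ∀ j, 3 ≤ k j) : Prop :=
  ∀ i : ℕ, Tendsto (fun j => (qExpansion 1 (Poincare.cuspForm (N j) (hk3 j) one_ne_zero)).coeff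
    (p ^ i)) atTop (𝓝 (if i = 0 then 2 else 0))

theorem firstColumn_weight (hp : p.Prime) {k : ℕ → ℤ} (hk3 : ∀ j, 3 ≤ k j)
    (hk : Tendsto k atTop atTop) (he : ∀ j, Even (k j)) :
    FirstColumn (N := fun _ => N) p hk3 := fun i => by
  have h := tendsto_coeff_poincare (N := N) hk3 hk he one_ne_zero (p ^ i)
  rcases Nat.eq_zero_or_pos i with rfl | hi
  · simpa using h
  · rw [if_neg (Ne.symm (Nat.one_lt_pow hi.ne' hp.one_lt).ne')] at h
    rwa [if_neg hi.ne']

theorem tendsto_iterCoeff_of (hp : p.Prime) {N : ℕ → ℕ} [∀ j, NeZero (N j)]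
    (hpN : ∀ j, ¬p ∣ N j) {k : ℕ → ℤ} (hk3 : ∀ j, 3 ≤ k j) (hP : FirstColumn (N := N) p hk3)
    (n : ℕ) : ∀ i : ℕ,
    Tendsto (fun j => iterCoeff (N j) hp (hpN j) (hk3 j) n i / (normScale p (k j) : ℂ) ^ (n + i))
      atTop (𝓝 ((2 * moment n i : ℝ) : ℂ)) := by
  induction n with
  | zero =>
    intro i
    have h := hP i
    rcases Nat.eq_zero_or_pos i with rfl | hi
    · rw [pow_zero, if_pos rfl] at h
      simpa [iterCoeff, moment_zero, coeffAt_apply] using h
    · rw [moment_zero, if_neg hi.ne', mul_zero, Complex.ofReal_zero]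
      rw [if_neg hi.ne'] at h
      refine squeeze_zero_norm (fun j => ?_) (tendsto_zero_iff_norm_tendsto_zero.1 h)
      rw [zero_add, norm_div, norm_pow, Complex.norm_real,
        Real.norm_of_nonneg (normScale_pos hp _).le]
      simp only [iterCoeff, pow_zero, Module.End.one_apply, coeffAt_apply]
      exact div_le_self (norm_nonneg _) (one_le_pow₀ (one_le_normScale hp (hk3 j)))
  | succ n ih =>
    intro i
    rw [moment_succ]
    rcases i with _ | i
    · simp only [↓reduceIte, add_zero, zero_add]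
      refine (ih 1).congr fun j => ?_
      simp [iterCoeff_succ]
    · rw [if_neg (Nat.succ_ne_zero i), Nat.add_sub_cancel, mul_add, Complex.ofReal_add]
      refine ((ih (i + 2)).add (ih i)).congr fun j => ?_
      rw [iterCoeff_succ, if_neg (Nat.succ_ne_zero i), Nat.add_sub_cancel,
        show ((p : ℂ) ^ (k j - 1)) = ((normScale p (k j) ^ 2 : ℝ) : ℂ) by
          rw [normScale_sq]; push_cast; rfl, Complex.ofReal_pow]
      have hq : (normScale p (k j) : ℂ) ≠ 0 := Complex.ofReal_ne_zero.2 (normScale_pos hp _).ne'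
      rw [show n + 1 + (i + 1) = n + i + 2 by omega, show n + (i + 2) = n + i + 2 by omega,
        pow_add (normScale p (k j) : ℂ) (n + i) 2]
      field_simp

theorem tendsto_iterCoeff (hp : p.Prime) (hpN : ¬p ∣ N) {k : ℕ → ℤ} (hk3 : ∀ j, 3 ≤ k j)
    (hk : Tendsto k atTop atTop) (he : ∀ j, Even (k j)) (n i : ℕ) :
    Tendsto (fun j => iterCoeff N hp hpN (hk3 j) n i / (normScale p (k j) : ℂ) ^ (n + i)) atTop
      (𝓝 ((2 * moment n i : ℝ) : ℂ)) :=
  tendsto_iterCoeff_of hp (fun _ => hpN) hk3 (firstColumn_weight hp hk3 hk he) n i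

/-! ## Eigenbases -/

/-- An orthonormal basis for the Petersson product, of eigenvectors of `T_p` with eigenvalues
`x i p ^ ((k - 1) / 2)`. -/
def IsEigenbasis (hp : p.Prime) (hpN : ¬p ∣ N) {d : ℕ} (e : Fin d → CuspForm (Gamma0 N) k)
    (x : Fin d → ℝ) : Prop :=
  (∀ i i', Poincare.pairing (e i) (e i') = if i = i' then 1 else 0) ∧
    Submodule.span ℂ (Set.range e) = ⊤ ∧
    ∀ i, CuspForm.heckeTLin k hp hpN (e i) = ((x i * normScale p k : ℝ) : ℂ) • e i

theorem exists_isEigenbasis (hp : p.Prime) (hpN : ¬p ∣ N) (k : ℤ) :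
    ∃ (d : ℕ) (e : Fin d → CuspForm (Gamma0 N) k) (x : Fin d → ℝ),
      IsEigenbasis hp hpN e x := by
  letI core : InnerProductSpace.Core ℂ (CuspForm (Gamma0 N) k) := Poincare.pairingCore
  letI : NormedAddCommGroup (CuspForm (Gamma0 N) k) := core.toNormedAddCommGroup
  letI : InnerProductSpace ℂ (CuspForm (Gamma0 N) k) := InnerProductSpace.ofCore core.toCore
  haveI : FiniteDimensional ℂ (CuspForm (Gamma0 N) k) := Valence.finite_cuspForm
  have hT : LinearMap.IsSymmetric (CuspForm.heckeTLin k hp hpN) := fun f g =>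
    pairing_heckeT hp hpN f g
  refine ⟨_, hT.eigenvectorBasis rfl, fun i => hT.eigenvalues rfl i / normScale p k,
    fun i i' => ?_, ?_, fun i => ?_⟩
  · exact orthonormal_iff_ite.1 (hT.eigenvectorBasis rfl).orthonormal i i'
  · rw [← OrthonormalBasis.coe_toBasis]
    exact Module.Basis.span_eq _
  · rw [div_mul_cancel₀ _ (normScale_pos hp k).ne']
    exact hT.apply_eigenvectorBasis rfl i

theorem pairing_expand {d : ℕ} {e : Fin d → CuspForm (Gamma0 N) k}
    (horth : ∀ i i', Poincare.pairing (e i) (e i') = if i = i' then 1 else 0)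
    (hspan : Submodule.span ℂ (Set.range e) = ⊤) (f : CuspForm (Gamma0 N) k) :
    f = ∑ i, Poincare.pairing (e i) f • e i := by
  obtain ⟨c, hc⟩ := Submodule.mem_span_range_iff_exists_fun ℂ |>.1
    (hspan ▸ Submodule.mem_top : f ∈ Submodule.span ℂ (Set.range e))
  letI core : InnerProductSpace.Core ℂ (CuspForm (Gamma0 N) k) := Poincare.pairingCore
  letI : NormedAddCommGroup (CuspForm (Gamma0 N) k) := core.toNormedAddCommGroup
  letI : InnerProductSpace ℂ (CuspForm (Gamma0 N) k) := InnerProductSpace.ofCore core.toCore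
  have ho : Orthonormal ℂ e := orthonormal_iff_ite.2 horth
  conv_lhs => rw [← hc]
  refine Finset.sum_congr rfl fun i _ => ?_
  congr 1
  rw [← hc]
  exact (ho.inner_right_fintype c i).symm

/-- Petersson's constant for `P_1`. -/
def firstConst (k : ℤ) : ℝ :=
  2 * ((1 / (4 * π * (1 : ℕ))) ^ ((k : ℝ) - 1) * Real.Gamma (k - 1))

theorem firstConst_pos (hk : 3 ≤ k) : 0 < firstConst k := by
  have h3 : (3 : ℝ) ≤ k := by exact_mod_cast hk
  exact mul_pos two_pos (mul_pos (Real.rpow_pos_of_pos (by positivity) _)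
    (Real.Gamma_pos_of_pos (by linarith)))

/-- The weight of an eigenform. -/
def eigenWeight (f : CuspForm (Gamma0 N) k) : ℝ := ‖(qExpansion 1 f).coeff 1‖ ^ 2

theorem iterCoeff_eq_sum (hp : p.Prime) (hpN : ¬p ∣ N) (hk : 3 ≤ k) {d : ℕ}
    {e : Fin d → CuspForm (Gamma0 N) k} {x : Fin d → ℝ} (h : IsEigenbasis hp hpN e x) (n : ℕ) :
    iterCoeff N hp hpN hk n 0 =
      ((firstConst k * normScale p k ^ n * ∑ i, eigenWeight (e i) * x i ^ n : ℝ) : ℂ) := by
  obtain ⟨horth, hspan, heig⟩ := h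
  have hpow : ∀ i, ((CuspForm.heckeTLin k hp hpN) ^ n) (e i) =
      (((x i * normScale p k : ℝ) : ℂ)) ^ n • e i := by
    intro i
    induction n with
    | zero => simp
    | succ n ih =>
      rw [pow_succ' (CuspForm.heckeTLin k hp hpN), Module.End.mul_apply, ih, map_smul, heig,
        smul_smul, pow_succ]
  rw [iterCoeff, pow_zero, pairing_expand horth hspan (Poincare.cuspForm N hk one_ne_zero)]
  simp only [map_sum, map_smul, hpow, smul_eq_mul, Finset.mul_sum, Complex.ofReal_sum]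
  refine Finset.sum_congr rfl fun i _ => ?_
  rw [← Poincare.pairing_symm (e i), Poincare.pairing_poincare hk one_ne_zero, map_mul,
    Complex.conj_ofReal, coeffAt_apply, eigenWeight]
  push_cast
  rw [← Complex.conj_mul', firstConst]
  push_cast
  ring

/-! ## The limit -/

theorem iterCoeff_ratio (hp : p.Prime) (hpN : ¬p ∣ N) (hk : 3 ≤ k) {d : ℕ}
    {e : Fin d → CuspForm (Gamma0 N) k} {x : Fin d → ℝ} (h : IsEigenbasis hp hpN e x) (n : ℕ) :
    (((∑ i, eigenWeight (e i) * x i ^ n) / ∑ i, eigenWeight (e i) : ℝ) : ℂ) =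
      (iterCoeff N hp hpN hk n 0 / (normScale p k : ℂ) ^ (n + 0)) /
        (iterCoeff N hp hpN hk 0 0 / (normScale p k : ℂ) ^ (0 + 0)) := by
  rw [iterCoeff_eq_sum hp hpN hk h n, iterCoeff_eq_sum hp hpN hk h 0]
  have hq : (normScale p k : ℂ) ≠ 0 := Complex.ofReal_ne_zero.2 (normScale_pos hp _).ne'
  have hC : (firstConst k : ℂ) ≠ 0 := Complex.ofReal_ne_zero.2 (firstConst_pos hk).ne'
  simp only [add_zero, pow_zero, mul_one, div_one]
  push_cast
  field_simp

theorem tendsto_weighted_of (hp : p.Prime) {N : ℕ → ℕ} [∀ j, NeZero (N j)] (hpN : ∀ j, ¬p ∣ N j)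
    {k : ℕ → ℤ} (hk3 : ∀ j, 3 ≤ k j) (hP : FirstColumn (N := N) p hk3) {d : ℕ → ℕ}
    {e : ∀ j, Fin (d j) → CuspForm (Gamma0 (N j)) (k j)} {x : ∀ j, Fin (d j) → ℝ}
    (h : ∀ j, IsEigenbasis hp (hpN j) (e j) (x j)) :
    (∀ᶠ j in atTop, 0 < ∑ i, eigenWeight (e j i)) ∧
    (∀ n : ℕ, Tendsto
      (fun j => (∑ i, eigenWeight (e j i) * x j i ^ n) / ∑ i, eigenWeight (e j i)) atTop
      (𝓝 (semiMean fun t => t ^ n))) ∧
    ∀ φ : ℝ → ℝ, Continuous φ → ∀ B : ℝ, (∀ t, |φ t| ≤ B) → Tendsto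
      (fun j => (∑ i, eigenWeight (e j i) * φ (x j i)) / ∑ i, eigenWeight (e j i)) atTop
      (𝓝 (semiMean φ)) := by
  have hmom : ∀ n : ℕ, Tendsto
      (fun j => (∑ i, eigenWeight (e j i) * x j i ^ n) / ∑ i, eigenWeight (e j i)) atTop
      (𝓝 (moment n 0)) := by
    intro n
    have h1 := (tendsto_iterCoeff_of hp hpN hk3 hP n 0).div
      (tendsto_iterCoeff_of hp hpN hk3 hP 0 0)
      (by simp [moment_zero])
    rw [moment_zero, if_pos rfl, ← Complex.ofReal_div, mul_one,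
      mul_div_cancel_left₀ _ two_ne_zero] at h1
    refine Filter.tendsto_ofReal_iff.1 (h1.congr fun j => ?_)
    exact (iterCoeff_ratio hp (hpN j) (hk3 j) (h j) n).symm
  have hW : ∀ᶠ j in atTop, 0 < ∑ i, eigenWeight (e j i) := by
    have h0 := hmom 0
    rw [moment_zero, if_pos rfl] at h0
    filter_upwards [h0.eventually (lt_mem_nhds zero_lt_one)] with j hj
    refine lt_of_le_of_ne (Finset.sum_nonneg fun i _ => sq_nonneg _) fun h' => ?_
    simp only [pow_zero, mul_one, ← h', div_zero, lt_self_iff_false] at hj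
  refine ⟨hW, fun n => by rw [semiMean_pow]; exact hmom n, fun φ hφ B hB => ?_⟩
  have hdiv : ∀ (j : ℕ) (f : Fin (d j) → ℝ),
      ∑ i, eigenWeight (e j i) / (∑ l, eigenWeight (e j l)) * f i =
        (∑ i, eigenWeight (e j i) * f i) / ∑ l, eigenWeight (e j l) := fun j f => by
    rw [Finset.sum_div]
    exact Finset.sum_congr rfl fun i _ => by ring
  refine (tendsto_of_moments
    (fun j i => eigenWeight (e j i) / ∑ l, eigenWeight (e j l)) x ?_ (fun n => ?_) hφ hB).congr
    fun j => hdiv j _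
  · filter_upwards [hW] with j hj i
    exact div_nonneg (sq_nonneg _) hj.le
  · exact (hmom n).congr fun j => (hdiv j _).symm

theorem tendsto_weighted (hp : p.Prime) (hpN : ¬p ∣ N) {k : ℕ → ℤ} (hk3 : ∀ j, 3 ≤ k j)
    (hk : Tendsto k atTop atTop) (he : ∀ j, Even (k j)) {d : ℕ → ℕ}
    {e : ∀ j, Fin (d j) → CuspForm (Gamma0 N) (k j)} {x : ∀ j, Fin (d j) → ℝ}
    (h : ∀ j, IsEigenbasis hp hpN (e j) (x j)) :
    (∀ᶠ j in atTop, 0 < ∑ i, eigenWeight (e j i)) ∧
    (∀ n : ℕ, Tendsto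
      (fun j => (∑ i, eigenWeight (e j i) * x j i ^ n) / ∑ i, eigenWeight (e j i)) atTop
      (𝓝 (semiMean fun t => t ^ n))) ∧
    ∀ φ : ℝ → ℝ, Continuous φ → ∀ B : ℝ, (∀ t, |φ t| ≤ B) → Tendsto
      (fun j => (∑ i, eigenWeight (e j i) * φ (x j i)) / ∑ i, eigenWeight (e j i)) atTop
      (𝓝 (semiMean φ)) :=
  tendsto_weighted_of hp (fun _ => hpN) hk3 (firstColumn_weight hp hk3 hk he) h

theorem exists_eigenvalue_mem_of (hp : p.Prime) {N : ℕ → ℕ} [∀ j, NeZero (N j)]
    (hpN : ∀ j, ¬p ∣ N j) {k : ℕ → ℤ} (hk3 : ∀ j, 3 ≤ k j) (hP : FirstColumn (N := N) p hk3)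
    {a b : ℝ} (ha : -2 ≤ a) (hab : a < b) (hb : b ≤ 2) :
    ∃ j, ∃ μ ∈ Set.Ioo a b, Module.End.HasEigenvalue
      (CuspForm.heckeTLin (N := N j) (k j) hp (hpN j)) ((μ * normScale p (k j) : ℝ) : ℂ) := by
  choose d e x he using fun j => exists_isEigenbasis (N := N j) hp (hpN j) (k j)
  obtain ⟨-, -, hlim⟩ := tendsto_weighted_of hp hpN hk3 hP he
  set φ : ℝ → ℝ := fun t => max 0 (min (t - a) (b - t)) with hφ
  have hφc : Continuous φ := by fun_prop
  have hφB : ∀ t, |φ t| ≤ b - a := fun t => by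
    rw [abs_of_nonneg (le_max_left _ _)]
    refine max_le (by linarith) ?_
    rcases le_total t b with h | h
    · exact (min_le_left _ _).trans (by linarith)
    · exact (min_le_right _ _).trans (by linarith)
  have hpos : 0 < semiMean φ := semiMean_pos hφc (fun t => le_max_left _ _)
    (c := (a + b) / 2) ⟨by linarith, by linarith⟩
    (lt_max_of_lt_right (lt_min (by linarith) (by linarith)))
  obtain ⟨j, hj⟩ := ((hlim φ hφc _ hφB).eventually (lt_mem_nhds hpos)).exists
  obtain ⟨i, hi⟩ : ∃ i, φ (x j i) ≠ 0 := by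
    by_contra h0
    push Not at h0
    simp [h0] at hj
  have hmem : x j i ∈ Set.Ioo a b := by
    by_contra hn
    refine hi (max_eq_left ?_)
    rw [Set.mem_Ioo, not_and_or, not_lt, not_lt] at hn
    rcases hn with h | h
    · exact (min_le_left _ _).trans (by linarith)
    · exact (min_le_right _ _).trans (by linarith)
  refine ⟨j, x j i, hmem, ?_⟩
  refine Module.End.hasEigenvalue_of_hasEigenvector (x := e j i)
    ⟨Module.End.mem_eigenspace_iff.2 ((he j).2.2 i), fun h0 => ?_⟩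
  have h1 := (he j).1 i i
  rw [if_pos rfl, h0, show (0 : CuspForm (Gamma0 (N j)) (k j)) = (0 : ℂ) • 0 by simp,
    Poincare.pairing_smul_left] at h1
  simp at h1

theorem exists_eigenvalue_mem (hp : p.Prime) (hpN : ¬p ∣ N) {a b : ℝ} (ha : -2 ≤ a) (hab : a < b)
    (hb : b ≤ 2) :
    ∃ K : ℤ, ∀ k : ℤ, K ≤ k → Even k → ∃ μ ∈ Set.Ioo a b,
      Module.End.HasEigenvalue (CuspForm.heckeTLin (N := N) k hp hpN)
        ((μ * normScale p k : ℝ) : ℂ) := by
  by_contra hneg
  push Not at hneg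
  choose kk hkK hke hno using fun j : ℕ => hneg (max (j : ℤ) 4)
  have hk3 : ∀ j, 3 ≤ kk j := fun j => by have := hkK j; omega
  have hkt : Tendsto kk atTop atTop :=
    tendsto_atTop_mono (fun j => (le_max_left _ _).trans (hkK j)) tendsto_natCast_atTop_atTop
  obtain ⟨j, μ, hμ, hev⟩ := exists_eigenvalue_mem_of hp (fun _ => hpN) hk3
    (firstColumn_weight (N := N) hp hk3 hkt hke) ha hab hb
  exact hno j μ hμ hev

/-- The normalised eigenvalues of `T_p` in weight `k`. -/
def normEigenvalues (hp : p.Prime) (hpN : ¬p ∣ N) (k : ℤ) : Set ℝ :=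
  {μ | Module.End.HasEigenvalue (CuspForm.heckeTLin (N := N) k hp hpN)
    ((μ * normScale p k : ℝ) : ℂ)}

theorem finite_normEigenvalues (hp : p.Prime) (hpN : ¬p ∣ N) (k : ℤ) :
    (normEigenvalues (N := N) hp hpN k).Finite := by
  haveI : FiniteDimensional ℂ (CuspForm (Gamma0 N) k) := Valence.finite_cuspForm
  refine (Module.End.finite_hasEigenvalue (CuspForm.heckeTLin (N := N) k hp hpN)).preimage
    (f := fun μ : ℝ => ((μ * normScale p k : ℝ) : ℂ)) fun a _ b _ h => ?_
  exact mul_right_cancel₀ (normScale_pos hp k).ne' (Complex.ofReal_injective h)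

/-- `r` disjoint intervals in `[-2, 2]`. -/
def interval (r : ℕ) (l : Fin r) : Set ℝ :=
  Set.Ioo (-2 + 4 * (l : ℕ) / (r : ℝ)) (-2 + 4 * (l : ℕ) / r + 4 / r)

theorem le_ncard_of_mem_interval {r : ℕ} {s : Set ℝ} (hs : s.Finite)
    (h : ∀ l : Fin r, ∃ μ ∈ interval r l, μ ∈ s) : r ≤ s.ncard := by
  set f : Fin r → ℝ := fun l => -2 + 4 * (l : ℕ) / r with hf
  choose μ hμ hμe using h
  have hinj : Function.Injective μ := by
    intro l l' h
    by_contra hne'
    wlog hlt : (l : ℕ) < l' generalizing l l'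
    · exact this h.symm (Ne.symm hne')
        (lt_of_le_of_ne (not_lt.1 hlt) fun e => hne' (Fin.ext e.symm))
    have h2 : ((l : ℕ) : ℝ) + 1 ≤ (l' : ℕ) := by exact_mod_cast hlt
    have h3 : f l + 4 / r ≤ f l' := by
      simp only [hf]
      rw [add_assoc, ← add_div]
      gcongr
      linarith
    have := (hμ l).2
    have := (hμ l').1
    linarith
  calc r = (Set.range μ).ncard := by
        rw [Set.ncard_range_of_injective hinj, Nat.card_fin]
    _ ≤ _ := Set.ncard_le_ncard (Set.range_subset_iff.2 hμe) hs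

theorem interval_bounds {r : ℕ} (l : Fin r) :
    -2 ≤ -2 + 4 * (l : ℕ) / (r : ℝ) ∧
      -2 + 4 * (l : ℕ) / (r : ℝ) < -2 + 4 * (l : ℕ) / r + 4 / r ∧
      -2 + 4 * (l : ℕ) / (r : ℝ) + 4 / r ≤ 2 := by
  have hr' : (0 : ℝ) < r := Nat.cast_pos.2 l.pos
  have h0 : (0 : ℝ) ≤ 4 * (l : ℕ) / r := by positivity
  have h1 : ((l : ℕ) : ℝ) + 1 ≤ r := by exact_mod_cast l.2
  refine ⟨by linarith, lt_add_of_pos_right _ (by positivity), ?_⟩
  rw [add_assoc, ← add_div, show 4 * ((l : ℕ) : ℝ) + 4 = 4 * ((l : ℕ) + 1) by ring]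
  have : 4 * (((l : ℕ) : ℝ) + 1) / r ≤ 4 := by
    rw [div_le_iff₀ hr']
    linarith
  linarith

theorem exists_many_eigenvalues (hp : p.Prime) (hpN : ¬p ∣ N) (r : ℕ) :
    ∃ K : ℤ, ∀ k : ℤ, K ≤ k → Even k → r ≤ (normEigenvalues (N := N) hp hpN k).ncard := by
  choose K hK using fun l : Fin r => exists_eigenvalue_mem (N := N) hp hpN (interval_bounds l).1
    (interval_bounds l).2.1 (interval_bounds l).2.2
  obtain ⟨K₀, hK₀⟩ := (Set.finite_range K).bddAbove
  exact ⟨K₀, fun k hk hek => le_ncard_of_mem_interval (finite_normEigenvalues hp hpN k)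
    fun l => hK l k ((hK₀ ⟨l, rfl⟩).trans hk) hek⟩

end FA.VerticalSatoTate

end
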