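import Fermat.Agent.Poincare.Product
import Fermat.Agent.Petersson.Inner

/-!
# The Hecke operators are symmetric in every weight

The proof in weight two works in every weight, as `(g ∣ diag(ℓ, 1)) ∣ diag(1, ℓ) = ℓ ^ (k - 2) g`
cancels the factor `ℓ ^ (k - 2)` of the change of variables.
-/

set_option autoImplicit false
set_option linter.style.haveILetI false

noncomputable section

open MeasureTheory UpperHalfPlane ModularGroup Matrix.SpecialLinearGroup CongruenceSubgroup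
open scoped MatrixGroups Modular ModularForm ComplexConjugate

namespace FA.VerticalSatoTate

open FA.Petersson (Bdd mean avg aux conjMat conjHom mkSL mat_mul_mapGL conjHom_injective
  Gamma_mul_le_range Gamma_le_Gamma0 neg_one_notMem_Gamma mem_Gamma_iff_dvd mapGL_apply
  sl_det_eq mean_add mean_sum mean_conj mean_comp_sl mean_comp_smul mean_eq_of_le)

local notation "Γ₁" => SL(2, ℤ)

variable {N : ℕ} {k : ℤ} {ℓ : ℕ}

/-- Continuous, with bounded `‖a‖² y ^ k`. -/
def Tame (k : ℤ) (a : ℍ → ℂ) : Prop :=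
  Continuous a ∧ ∃ C : ℝ, ∀ z, ‖petersson k a a z‖ ≤ C

theorem Tame.bdd {a b : ℍ → ℂ} (ha : Tame k a) (hb : Tame k b) : Bdd (petersson k a b) := by
  refine ⟨(petersson_continuous k ha.1 hb.1).measurable, ?_⟩
  obtain ⟨-, C, hC⟩ := ha
  obtain ⟨-, D, hD⟩ := hb
  refine ⟨C + D, fun z => le_trans ?_ (add_le_add (hC z) (hD z))⟩
  simp only [petersson, norm_mul, Complex.norm_conj]
  nlinarith [mul_nonneg (sq_nonneg (‖a z‖ - ‖b z‖)) (norm_nonneg ((z.im : ℂ) ^ k)),
    mul_nonneg (mul_nonneg (norm_nonneg (a z)) (norm_nonneg (b z)))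
      (norm_nonneg ((z.im : ℂ) ^ k))]

theorem Tame.slash {a : ℍ → ℂ} (ha : Tame k a) (α : GL (Fin 2) ℝ)
    (hc : Continuous (a ∣[k] α)) : Tame k (a ∣[k] α) := by
  obtain ⟨-, C, hC⟩ := ha
  refine ⟨hc, |α.det.val| ^ (k - 2) * C, fun z => ?_⟩
  rw [petersson_slash, norm_mul, norm_σ, norm_zpow, Complex.norm_real, Real.norm_eq_abs, abs_abs]
  exact mul_le_mul_of_nonneg_left (hC _) (by positivity)

theorem tame_form [NeZero N] (f : CuspForm (Gamma0 N) k) : Tame k f :=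
  ⟨(CuspFormClass.holo f).continuous, CuspFormClass.petersson_bounded_left k _ f f⟩

theorem tame_diag [NeZero N] (hl : ℓ ≠ 0) (f : CuspForm (Gamma0 N) k) :
    Tame k ((⇑f) ∣[k] ModularForm.heckeDiagMatrix ℓ) :=
  (tame_form f).slash _ (by
    rw [funext (ModularForm.slash_heckeDiagMatrix_apply k hl f)]
    exact continuous_const.mul ((tame_form f).1.comp (continuous_const_smul _)))

theorem tame_mat [NeZero N] (hl : ℓ ≠ 0) (j : ℕ) (f : CuspForm (Gamma0 N) k) :
    Tame k ((⇑f) ∣[k] ModularForm.heckeMatrix ℓ j) :=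
  (tame_form f).slash _ (by
    rw [funext (ModularForm.slash_heckeMatrix_apply k hl j f)]
    exact continuous_const.mul ((tame_form f).1.comp (continuous_const_smul _)))

theorem invariant_petersson {a b : ℍ → ℂ} {γ : Γ₁} (ha : a ∣[k] γ = a) (hb : b ∣[k] γ = b)
    (z : ℍ) : petersson k a b (γ • z) = petersson k a b z := by
  rw [← petersson_slash_SL, ha, hb]

theorem slash_mat (hl : ℓ ≠ 0) (j : ℕ) (f : ℍ → ℂ) :
    f ∣[k] ModularForm.heckeMatrix ℓ j =
      (f ∣[k] ModularForm.heckeMatrix ℓ 0) ∣[k] (T ^ (j : ℤ) : Γ₁) := by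
  rw [ModularForm.SL_slash, ← SlashAction.slash_mul]
  change f ∣[k] ModularForm.heckeMatrix ℓ j =
    f ∣[k] (ModularForm.heckeMatrix ℓ 0 * mapGL ℝ (T ^ (j : ℤ) : Γ₁))
  congr 1
  ext i l
  simp only [Matrix.GeneralLinearGroup.coe_mul, ModularForm.val_heckeMatrix hl, Matrix.mul_apply,
    Fin.sum_univ_two, mapGL_apply, ModularGroup.coe_T_zpow]
  fin_cases i <;> fin_cases l <;> simp

theorem dvd_aux (N ℓ : ℕ) : N ∣ aux N ℓ := ⟨3 * ℓ, by simp [aux]; ring⟩

variable [NeZero N]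

omit [NeZero N] in
theorem slash_mat_inv (hl : ℓ ≠ 0) (f : CuspForm (Gamma0 N) k) {γ : Γ₁}
    (hγ : γ ∈ Gamma (aux N ℓ)) :
    ((⇑f) ∣[k] ModularForm.heckeMatrix ℓ 0) ∣[k] γ = (⇑f) ∣[k] ModularForm.heckeMatrix ℓ 0 := by
  have h := mat_mul_mapGL hl ⟨γ, hγ⟩
  simp only at h
  have hmem : conjMat ℓ ⟨γ, hγ⟩ ∈ Gamma0 N := by
    rw [Gamma0_mem, ZMod.intCast_zmod_eq_zero_iff_dvd]
    simpa [conjMat] using ((Int.natCast_dvd_natCast.mpr (dvd_aux N ℓ)).trans
      (mem_Gamma_iff_dvd.mp hγ).2.2.1).mul_left (ℓ : ℤ)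
  rw [ModularForm.SL_slash, ← SlashAction.slash_mul]
  change (⇑f) ∣[k] (ModularForm.heckeMatrix ℓ 0 * mapGL ℝ γ) = _
  rw [h, SlashAction.slash_mul]
  congr 1
  exact Poincare.slash_of_mem f hmem

omit [NeZero N] in
theorem slash_diag_inv_range (hl : ℓ ≠ 0) (f : CuspForm (Gamma0 N) k) {γ : Γ₁}
    (hγ : γ ∈ (conjHom (N := N) hl).range) :
    ((⇑f) ∣[k] ModularForm.heckeDiagMatrix ℓ) ∣[k] γ =
      (⇑f) ∣[k] ModularForm.heckeDiagMatrix ℓ := by
  obtain ⟨a, rfl⟩ := hγ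
  have h := mat_mul_mapGL hl a
  have hD : ModularForm.heckeDiagMatrix ℓ * mapGL ℝ (conjMat ℓ a) =
      mapGL ℝ (a : Γ₁) * ModularForm.heckeDiagMatrix ℓ := by
    have hc : ∀ x : GL (Fin 2) ℝ,
        ModularForm.heckeDiagMatrix ℓ * ModularForm.heckeMatrix ℓ 0 * x =
          x * (ModularForm.heckeDiagMatrix ℓ * ModularForm.heckeMatrix ℓ 0) := fun x => by
      ext i l
      fin_cases i <;> fin_cases l <;>
        simp [ModularForm.val_heckeMatrix hl, ModularForm.val_heckeDiagMatrix hl,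
          Matrix.mul_apply, Fin.sum_univ_two] <;> ring
    refine mul_right_cancel (b := ModularForm.heckeMatrix ℓ 0) ?_
    rw [mul_assoc, ← h, ← mul_assoc, hc, mul_assoc]
  rw [ModularForm.SL_slash, ← SlashAction.slash_mul]
  change (⇑f) ∣[k] (ModularForm.heckeDiagMatrix ℓ * mapGL ℝ (conjMat ℓ a)) = _
  rw [hD, SlashAction.slash_mul]
  congr 1
  exact Poincare.slash_of_mem f (Gamma_le_Gamma0 (dvd_aux N ℓ) a.2)

omit [NeZero N] in
theorem slash_diag_inv (hl : ℓ ≠ 0) (f : CuspForm (Gamma0 N) k) {γ : Γ₁}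
    (hγ : γ ∈ Gamma (aux N ℓ)) :
    ((⇑f) ∣[k] ModularForm.heckeDiagMatrix ℓ) ∣[k] γ =
      (⇑f) ∣[k] ModularForm.heckeDiagMatrix ℓ := by
  obtain ⟨-, -, ⟨c, hc⟩, -⟩ := mem_Gamma_iff_dvd.mp hγ
  let γ' : Γ₁ := mkSL (γ 0 0) ((ℓ : ℤ) * γ 0 1) (3 * (N : ℤ) * c) (γ 1 1) (by
    have hdet := sl_det_eq γ
    rw [hc] at hdet
    push_cast at hdet ⊢
    linear_combination hdet)
  have hD : ModularForm.heckeDiagMatrix ℓ * mapGL ℝ γ =
      mapGL ℝ γ' * ModularForm.heckeDiagMatrix ℓ := by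
    ext i l
    fin_cases i <;> fin_cases l <;>
      simp [γ', ModularForm.val_heckeDiagMatrix hl, Matrix.mul_apply, Fin.sum_univ_two,
        hc] <;> ring
  rw [ModularForm.SL_slash, ← SlashAction.slash_mul]
  change (⇑f) ∣[k] (ModularForm.heckeDiagMatrix ℓ * mapGL ℝ γ) = _
  rw [hD, SlashAction.slash_mul]
  congr 1
  refine Poincare.slash_of_mem f ?_
  rw [Gamma0_mem, ZMod.intCast_zmod_eq_zero_iff_dvd]
  exact ⟨3 * c, by simp [γ']; ring⟩

theorem mean_mat (hl : ℓ ≠ 0) (f g : CuspForm (Gamma0 N) k) :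
    mean (Gamma (aux N ℓ)) (petersson k ((⇑f) ∣[k] ModularForm.heckeMatrix ℓ 0) g) =
      mean (Gamma (aux N ℓ)) (petersson k f ((⇑g) ∣[k] ModularForm.heckeDiagMatrix ℓ)) := by
  have : NeZero (aux N ℓ) := ⟨by simp [aux, hl, NeZero.ne N]⟩
  have : NeZero (aux N ℓ * ℓ) := ⟨mul_ne_zero (NeZero.ne _) hl⟩
  have hM : 3 ≤ aux N ℓ := by
    have h1 : 0 < N * ℓ := Nat.pos_of_ne_zero (mul_ne_zero (NeZero.ne N) hl)
    simp only [aux, mul_assoc]
    omega
  set F := petersson k (⇑f) ((⇑g) ∣[k] ModularForm.heckeDiagMatrix ℓ)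
  have hB : Bdd F := (tame_form f).bdd (tame_diag hl g)
  have hle := Gamma_mul_le_range (N := N) hl
  have : (conjHom (N := N) hl).range.FiniteIndex := Subgroup.finiteIndex_of_le hle
  have hneg : (-1 : Γ₁) ∉ (conjHom (N := N) hl).range := by
    rintro ⟨a, ha⟩
    have h00 := (mem_Gamma_iff_dvd.mp a.2).1
    have : (a : Γ₁) 0 0 = -1 := by
      have := congrArg (fun x : Γ₁ => x 0 0) ha
      simpa [conjHom, conjMat] using this
    rw [this] at h00
    norm_num at h00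
    have := Nat.le_of_dvd (by norm_num) (Int.natCast_dvd_natCast.mp h00 : aux N ℓ ∣ 2)
    omega
  have hinvR : ∀ γ ∈ (conjHom (N := N) hl).range, ∀ z, F (γ • z) = F z := fun γ hγ z => by
    refine invariant_petersson (Poincare.slash_of_mem f ?_) (slash_diag_inv_range hl g hγ) z
    obtain ⟨a, rfl⟩ := hγ
    rw [Gamma0_mem, ZMod.intCast_zmod_eq_zero_iff_dvd]
    simpa [conjHom, conjMat] using ((Int.natCast_dvd_natCast.mpr (dvd_aux N ℓ)).trans
      (mem_Gamma_iff_dvd.mp a.2).2.2.1).mul_left (ℓ : ℤ)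
  have hinvG : ∀ γ ∈ Gamma (aux N ℓ), ∀ z, F (γ • z) = F z := fun γ hγ z =>
    invariant_petersson (Poincare.slash_of_mem f (Gamma_le_Gamma0 (dvd_aux N ℓ) hγ))
      (slash_diag_inv hl g hγ) z
  have hl' : (ℓ : ℂ) ≠ 0 := Nat.cast_ne_zero.mpr hl
  have hpt : petersson k ((⇑f) ∣[k] ModularForm.heckeMatrix ℓ 0) g =
      fun z => F (ModularForm.heckeMatrix ℓ 0 • z) := by
    funext z
    have hz : ModularForm.heckeDiagMatrix ℓ • ModularForm.heckeMatrix ℓ 0 • z = z := by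
      ext
      rw [ModularForm.coe_heckeDiagMatrix_smul hl, ModularForm.coe_heckeMatrix_smul hl]
      field_simp
      simp
    show conj (((⇑f) ∣[k] ModularForm.heckeMatrix ℓ 0) z) * g z * (z.im : ℂ) ^ k =
      conj (f (ModularForm.heckeMatrix ℓ 0 • z)) *
        ((⇑g) ∣[k] ModularForm.heckeDiagMatrix ℓ) (ModularForm.heckeMatrix ℓ 0 • z) *
          ((ModularForm.heckeMatrix ℓ 0 • z).im : ℂ) ^ k
    have him : (ModularForm.heckeMatrix ℓ 0 • z).im = z.im / ℓ := by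
      have h := congrArg Complex.im (ModularForm.coe_heckeMatrix_smul hl 0 z)
      rw [coe_im] at h
      rw [h]
      simp [Complex.div_natCast_im]
    rw [ModularForm.slash_heckeMatrix_apply k hl, ModularForm.slash_heckeDiagMatrix_apply k hl, hz,
      him, map_mul, map_inv₀, map_natCast, Complex.ofReal_div, Complex.ofReal_natCast, div_zpow,
      zpow_sub_one₀ hl']
    field_simp
  rw [hpt, mean_comp_smul (neg_one_notMem_Gamma hM) hneg (ModularForm.heckeMatrix ℓ 0)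
    (MonoidHom.ofInjective (conjHom_injective hl)).symm.toEquiv (fun g z => ?_) hinvR hB,
    ← mean_eq_of_le hle hinvR,
    mean_eq_of_le (K := Gamma (aux N ℓ)) (fun x hx => ?_) hinvG]
  · rw [mem_Gamma_iff_dvd] at hx ⊢
    have hd : ((aux N ℓ : ℕ) : ℤ) ∣ ((aux N ℓ * ℓ : ℕ) : ℤ) :=
      Int.natCast_dvd_natCast.mpr ⟨ℓ, rfl⟩
    exact ⟨hd.trans hx.1, hd.trans hx.2.1, hd.trans hx.2.2.1, hd.trans hx.2.2.2⟩
  · obtain ⟨a, rfl⟩ := (MonoidHom.ofInjective (conjHom_injective (N := N) hl)).surjective g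
    rw [show ((MonoidHom.ofInjective (conjHom_injective (N := N) hl)).symm.toEquiv)
        (MonoidHom.ofInjective (conjHom_injective hl) a) = a from
      (MonoidHom.ofInjective (conjHom_injective hl)).symm_apply_apply a,
      MonoidHom.ofInjective_apply]
    rw [Petersson.sl_smul_eq, Petersson.sl_smul_eq, smul_smul, smul_smul]
    exact congrArg (· • z) (mat_mul_mapGL hl a)

omit [NeZero N] in
theorem mean_mat_eq_diag (hl : ℓ.Prime) (hN : ¬ ℓ ∣ N) (f g : CuspForm (Gamma0 N) k) :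
    mean (Gamma (aux N ℓ)) (petersson k f ((⇑g) ∣[k] ModularForm.heckeMatrix ℓ 0)) =
      mean (Gamma (aux N ℓ)) (petersson k f ((⇑g) ∣[k] ModularForm.heckeDiagMatrix ℓ)) := by
  obtain ⟨a, b, hab⟩ := Int.isCoprime_iff_gcd_eq_one.mpr (by
    rw [Int.gcd_natCast_natCast]; exact (hl.coprime_iff_not_dvd.mpr hN) :
      Int.gcd (ℓ : ℤ) (N : ℤ) = 1)
  let γ : Γ₁ := mkSL (ℓ : ℤ) (-b) (N : ℤ) a (by linear_combination hab)
  let γ' : Γ₁ := mkSL 1 (-b) (N : ℤ) ((ℓ : ℤ) * a) (by linear_combination hab)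
  have hγ : γ ∈ Gamma0 N := by simp [γ, Gamma0_mem]
  have hγ' : γ' ∈ Gamma0 N := by simp [γ', Gamma0_mem]
  have hmat : ModularForm.heckeMatrix ℓ 0 * mapGL ℝ γ =
      mapGL ℝ γ' * ModularForm.heckeDiagMatrix ℓ := by
    ext i l
    fin_cases i <;> fin_cases l <;>
      simp [γ, γ', ModularForm.val_heckeMatrix hl.ne_zero,
        ModularForm.val_heckeDiagMatrix hl.ne_zero, Matrix.mul_apply, Fin.sum_univ_two]
    all_goals ring
  have hpt : petersson k f ((⇑g) ∣[k] ModularForm.heckeDiagMatrix ℓ) =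
      fun z => petersson k f ((⇑g) ∣[k] ModularForm.heckeMatrix ℓ 0) (γ • z) := by
    funext z
    rw [← petersson_slash_SL, Poincare.slash_of_mem f hγ]
    congr 1
    rw [ModularForm.SL_slash, ← SlashAction.slash_mul]
    change _ = (⇑g) ∣[k] (ModularForm.heckeMatrix ℓ 0 * mapGL ℝ γ)
    rw [hmat, SlashAction.slash_mul]
    congr 1
    exact (Poincare.slash_of_mem g hγ').symm
  have := Gamma_normal (aux N ℓ)
  rw [hpt, mean_comp_sl]
  exact fun x hx z => invariant_petersson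
    (Poincare.slash_of_mem f (Gamma_le_Gamma0 (dvd_aux N ℓ) hx))
    (slash_mat_inv hl.ne_zero g hx) z

theorem pairing_eq_mean (f g : CuspForm (Gamma0 N) k) :
    Poincare.pairing f g = Nat.card (Γ₁ ⧸ Gamma0 N) * mean (Gamma0 N) (petersson k f g) := by
  letI := Fintype.ofFinite (Γ₁ ⧸ Gamma0 N)
  rw [mean, avg, finsum_eq_sum_of_fintype,
    mul_div_cancel₀ _ (Nat.cast_ne_zero.mpr Nat.card_pos.ne')]
  rfl

/-- **The good Hecke operators are symmetric.** -/
theorem pairing_heckeT (hl : ℓ.Prime) (hN : ¬ ℓ ∣ N) (f g : CuspForm (Gamma0 N) k) :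
    Poincare.pairing (CuspForm.heckeTLin k hl hN f) g =
      Poincare.pairing f (CuspForm.heckeTLin k hl hN g) := by
  have : NeZero (aux N ℓ) := ⟨by simp [aux, hl.ne_zero, NeZero.ne N]⟩
  have hdvd := dvd_aux N ℓ
  have hT : ∀ j : ℕ, (T ^ (j : ℤ) : Γ₁) ∈ Gamma0 N := fun j => Poincare.T_zpow_mem j
  have hmean : ∀ f g : CuspForm (Gamma0 N) k,
      mean (Gamma0 N) (petersson k f g) = mean (Gamma (aux N ℓ)) (petersson k f g) := fun f g =>
    (mean_eq_of_le (Gamma_le_Gamma0 hdvd) fun _ hγ z =>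
      invariant_petersson (Poincare.slash_of_mem f hγ) (Poincare.slash_of_mem g hγ) z).symm
  have hB1 := fun (f g : CuspForm (Gamma0 N) k) j =>
    (tame_form f).bdd (tame_mat hl.ne_zero j g)
  have hB2 := fun (f g : CuspForm (Gamma0 N) k) => (tame_form f).bdd (tame_diag hl.ne_zero g)
  have hright : ∀ f g : CuspForm (Gamma0 N) k,
      mean (Gamma0 N) (petersson k f (CuspForm.heckeTLin k hl hN g)) =
      (ℓ : ℂ) * mean (Gamma (aux N ℓ))
          (petersson k f ((⇑g) ∣[k] ModularForm.heckeMatrix ℓ 0)) +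
        mean (Gamma (aux N ℓ)) (petersson k f ((⇑g) ∣[k] ModularForm.heckeDiagMatrix ℓ)) := by
    intro f g
    rw [hmean]
    have hsum : petersson k f (CuspForm.heckeTLin k hl hN g) = fun z =>
        (∑ j ∈ Finset.range ℓ, petersson k f ((⇑g) ∣[k] ModularForm.heckeMatrix ℓ j) z) +
          petersson k f ((⇑g) ∣[k] ModularForm.heckeDiagMatrix ℓ) z := by
      funext z
      simp only [petersson, CuspForm.coe_heckeTLin_apply, ModularForm.heckeT_def, Pi.add_apply,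
        Finset.sum_apply, Finset.mul_sum, Finset.sum_mul, mul_add, add_mul]
    have hj : ∀ j, mean (Gamma (aux N ℓ))
        (petersson k f ((⇑g) ∣[k] ModularForm.heckeMatrix ℓ j)) =
        mean (Gamma (aux N ℓ)) (petersson k f ((⇑g) ∣[k] ModularForm.heckeMatrix ℓ 0)) := by
      intro j
      have hpt : petersson k f ((⇑g) ∣[k] ModularForm.heckeMatrix ℓ j) = fun z =>
          petersson k f ((⇑g) ∣[k] ModularForm.heckeMatrix ℓ 0) ((T ^ (j : ℤ) : Γ₁) • z) := by
        funext z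
        rw [← petersson_slash_SL, Poincare.slash_of_mem f (hT j), ← slash_mat hl.ne_zero]
      have := Gamma_normal (aux N ℓ)
      rw [hpt, mean_comp_sl]
      exact fun x hx z => invariant_petersson
        (Poincare.slash_of_mem f (Gamma_le_Gamma0 hdvd hx)) (slash_mat_inv hl.ne_zero g hx) z
    have hBsum : Bdd fun z => ∑ j ∈ Finset.range ℓ,
        petersson k f ((⇑g) ∣[k] ModularForm.heckeMatrix ℓ j) z := by
      refine ⟨Finset.measurable_sum _ fun j _ => (hB1 f g j).meas, ?_⟩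
      choose C hC using fun j => (hB1 f g j).bound
      exact ⟨∑ j ∈ Finset.range ℓ, C j, fun z =>
        (norm_sum_le _ _).trans (Finset.sum_le_sum fun j _ => hC j z)⟩
    rw [hsum, mean_add hBsum (hB2 f g), mean_sum _ (hB1 f g), Finset.sum_congr rfl fun j _ => hj j,
      Finset.sum_const, Finset.card_range, nsmul_eq_mul]
  have hA : ∀ f g : CuspForm (Gamma0 N) k,
      conj (mean (Gamma (aux N ℓ))
        (petersson k g ((⇑f) ∣[k] ModularForm.heckeMatrix ℓ 0))) =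
      mean (Gamma (aux N ℓ)) (petersson k f ((⇑g) ∣[k] ModularForm.heckeDiagMatrix ℓ)) := by
    intro f g
    rw [← mean_conj, ← mean_mat hl.ne_zero]
    exact congrArg _ (funext fun z => (petersson_symm k _ _ z).symm)
  rw [← Poincare.pairing_symm _ g, pairing_eq_mean, pairing_eq_mean, map_mul, map_natCast, hright,
    hright, map_add, map_mul, map_natCast, hA, ← mean_mat_eq_diag hl hN g f, hA,
    mean_mat_eq_diag hl hN f g]

end FA.VerticalSatoTate

end
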